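import Mathlib

/-!
Basic facts on the ring of integers of the `p`-th cyclotomic field used in the case II descent.
-/

set_option autoImplicit false

open NumberField Polynomial

namespace Fermat.Agent.FLTSmall_helper79

variable {p : ℕ} [hp : Fact p.Prime] {K : Type*} [Field K] [NumberField K]
  [IsCyclotomicExtension {p} ℚ K] {ζ : K} (hζ : IsPrimitiveRoot ζ p)

include hζ in
/-- every `p`-th power in `𝓞 K` is congruent to a rational integer modulo `p`. -/
theorem exists_int_dvd_pow_sub (x : 𝓞 K) : ∃ n : ℤ, (p : 𝓞 K) ∣ x ^ p - (n : 𝓞 K) := by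
  have hadj : Algebra.adjoin ℤ {hζ.toInteger} = ⊤ := by
    have h := (hζ.integralPowerBasis).adjoin_gen_eq_top
    rwa [hζ.integralPowerBasis_gen] at h
  have hx : x ∈ Algebra.adjoin ℤ {hζ.toInteger} := by rw [hadj]; trivial
  induction hx using Algebra.adjoin_induction with
  | mem y hy =>
    rw [Set.mem_singleton_iff] at hy
    subst hy
    refine ⟨1, ?_⟩
    have h1 : hζ.toInteger ^ p = 1 := hζ.toInteger_isPrimitiveRoot.pow_eq_one
    rw [h1]; simp
  | algebraMap r =>
    refine ⟨r ^ p, ?_⟩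
    simp
  | add y z _ _ hy hz =>
    obtain ⟨a, ha⟩ := hy
    obtain ⟨b, hb⟩ := hz
    obtain ⟨r, hr⟩ := exists_add_pow_prime_eq hp.out y z
    refine ⟨a + b, ?_⟩
    have : (y + z) ^ p - ((a + b : ℤ) : 𝓞 K) = (y ^ p - a) + (z ^ p - b) + p * (y * z * r) := by
      rw [hr]; push_cast; ring
    rw [this]
    exact dvd_add (dvd_add ha hb) (dvd_mul_right _ _)
  | mul y z _ _ hy hz =>
    obtain ⟨a, ha⟩ := hy
    obtain ⟨b, hb⟩ := hz
    refine ⟨a * b, ?_⟩
    have : (y * z) ^ p - ((a * b : ℤ) : 𝓞 K) = (y ^ p - a) * z ^ p + a * (z ^ p - b) := by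
      push_cast; ring
    rw [this]
    exact dvd_add (Dvd.dvd.mul_right ha _) (Dvd.dvd.mul_left hb _)

end Fermat.Agent.FLTSmall_helper79
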