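import Mathlib
import Fermat.Agent.FLTSmall_helper79.Basic

/-!
Kummer's descent for the second case of Fermat's equation in the ring of integers of the `p`-th
cyclotomic field, assuming this ring is a PID and Kummer's lemma on units.
-/

set_option autoImplicit false

open NumberField Polynomial Finset

namespace Fermat.Agent.FLTSmall_helper79

variable {p : ℕ} [hp : Fact p.Prime] {K : Type*} [Field K] [NumberField K]
  [IsCyclotomicExtension {p} ℚ K] {ζ : K} (hζ : IsPrimitiveRoot ζ p)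

local notation3 "Λ" => hζ.toInteger - 1
local notation3 "μp" => nthRootsFinset p (1 : 𝓞 K)

omit [NumberField K] [IsCyclotomicExtension {p} ℚ K] in
lemma lam_dvd_root_sub_root {η₁ η₂ : 𝓞 K} (h₁ : η₁ ∈ μp) (h₂ : η₂ ∈ μp) : Λ ∣ η₁ - η₂ :=
  hζ.toInteger_isPrimitiveRoot.sub_one_dvd_sub hp.out h₁ h₂

omit [NumberField K] [IsCyclotomicExtension {p} ℚ K] in
lemma associated_lam_root_sub_root {η₁ η₂ : 𝓞 K} (h₁ : η₁ ∈ μp) (h₂ : η₂ ∈ μp)
    (hne : η₁ ≠ η₂) : Associated Λ (η₁ - η₂) :=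
  hζ.toInteger_isPrimitiveRoot.nthRootsFinset_pairwise_associated_sub_one_sub_of_prime
    hp.out h₁ h₂ hne

lemma lam_dvd_add_root_mul (hodd : p ≠ 2) {x y : 𝓞 K} (h : Λ ∣ x ^ p + y ^ p) {η : 𝓞 K}
    (hη : η ∈ μp) : Λ ∣ x + η * y := by
  have hoddp : Odd p := hp.out.odd_of_ne_two hodd
  rw [hζ.toInteger_isPrimitiveRoot.pow_add_pow_eq_prod_add_mul x y hoddp] at h
  obtain ⟨η', hη', hdvd⟩ := (Prime.dvd_finsetProd_iff hζ.zeta_sub_one_prime' _).1 h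
  have : x + η * y = (x + η' * y) + (η - η') * y := by ring
  rw [this]
  exact dvd_add hdvd (Dvd.dvd.mul_right (lam_dvd_root_sub_root hζ hη hη') _)

lemma exists_lam_sq_dvd (hodd : p ≠ 2) {x y : 𝓞 K} (hy : ¬ Λ ∣ y)
    (h : ∀ η ∈ μp, Λ ∣ x + η * y) : ∃ η ∈ μp, Λ ^ 2 ∣ x + η * y := by
  have hprime := hζ.zeta_sub_one_prime'
  choose c hc using h
  let f : {η // η ∈ μp} → 𝓞 K ⧸ Ideal.span {Λ} := fun η => Ideal.Quotient.mk _ (c η.1 η.2)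
  have hfin : Finite (𝓞 K ⧸ Ideal.span {Λ}) := hζ.finite_quotient_span_sub_one'
  have hinj : Function.Injective f := by
    intro η₁ η₂ h12
    by_contra hne
    have hne' : η₁.1 ≠ η₂.1 := fun h => hne (Subtype.ext h)
    rw [Ideal.Quotient.eq, Ideal.mem_span_singleton] at h12
    obtain ⟨u, hu⟩ := associated_lam_root_sub_root hζ η₁.2 η₂.2 hne'
    have key : Λ * (c η₁.1 η₁.2 - c η₂.1 η₂.2) = Λ * (u * y) := by
      rw [mul_sub, ← hc, ← hc, ← mul_assoc, hu]; ring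
    have := mul_left_cancel₀ hprime.ne_zero key
    rw [this] at h12
    exact hy ((Units.dvd_mul_left).1 h12)
  have hcard : Nat.card (𝓞 K ⧸ Ideal.span {Λ}) ≤ Nat.card {η // η ∈ μp} := by
    rw [hζ.card_quotient_toInteger_sub_one, hζ.norm_toInteger_sub_one_of_prime_ne_two' hodd,
      Nat.card_eq_fintype_card, Fintype.card_coe,
      hζ.toInteger_isPrimitiveRoot.card_nthRootsFinset]
    simp
  obtain ⟨η, hη⟩ := (hinj.bijective_of_nat_card_le hcard).2 0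
  refine ⟨η.1, η.2, ?_⟩
  rw [Ideal.Quotient.eq_zero_iff_mem, Ideal.mem_span_singleton] at hη
  rw [hc η.1 η.2, pow_two]
  exact mul_dvd_mul_left _ hη


/-- The descent step for a *normalised* solution, i.e. one with `Λ ^ 2 ∣ x + y`. -/
lemma descent_of_sq_dvd (hodd : p ≠ 2) [IsPrincipalIdealRing (𝓞 K)]
    (hkum : ∀ (u : (𝓞 K)ˣ) (a : ℤ), (p : 𝓞 K) ∣ (u : 𝓞 K) - (a : 𝓞 K) → ∃ v : (𝓞 K)ˣ, u = v ^ p)
    {x y c : 𝓞 K} {ε : (𝓞 K)ˣ} (hy : ¬ Λ ∣ y) (hxy : IsCoprime x y) (hc : c ≠ 0) (hlc : Λ ∣ c)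
    (hsq : Λ ^ 2 ∣ x + y) (H : x ^ p + y ^ p = ε * c ^ p) :
    ∃ (x' y' c' : 𝓞 K) (ε' : (𝓞 K)ˣ), ¬ Λ ∣ y' ∧ IsCoprime x' y' ∧ c' ≠ 0 ∧ Λ ∣ c' ∧
      x' ^ p + y' ^ p = ε' * c' ^ p ∧ Λ * c' ∣ c := by
  classical
  have hprime := hζ.zeta_sub_one_prime'
  have hoddp : Odd p := hp.out.odd_of_ne_two hodd
  have hp0 : p ≠ 0 := hp.out.ne_zero
  have hzprim := hζ.toInteger_isPrimitiveRoot
  have h1mem : (1 : 𝓞 K) ∈ μp := (mem_nthRootsFinset hp.out.pos 1).2 (one_pow p)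
  -- all factors are divisible by `Λ`
  have hdvdsum : Λ ∣ x ^ p + y ^ p := by
    rw [H]; exact Dvd.dvd.mul_left (dvd_pow hlc hp0) _
  have hall : ∀ η ∈ μp, Λ ∣ x + η * y := fun η hη => lam_dvd_add_root_mul hζ hodd hdvdsum hη
  choose d hd using hall
  -- for `η ≠ 1` the quotient is prime to `Λ`
  have hnd : ∀ η (hη : η ∈ μp), η ≠ 1 → ¬ Λ ∣ d η hη := by
    intro η hη hne hdiv
    have h2 : Λ ^ 2 ∣ x + η * y := by
      rw [hd η hη, pow_two]; exact mul_dvd_mul_left _ hdiv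
    have h3 : Λ ^ 2 ∣ (η - 1) * y := by
      have : (η - 1) * y = (x + η * y) - (x + y) := by ring
      rw [this]; exact dvd_sub h2 hsq
    obtain ⟨u, hu⟩ := associated_lam_root_sub_root hζ hη h1mem hne
    rw [← hu, pow_two, mul_assoc] at h3
    have h4 := (mul_dvd_mul_iff_left hprime.ne_zero).1 h3
    exact hy ((Units.dvd_mul_left).1 h4)
  have hd1 : Λ ∣ d 1 h1mem := by
    have h2 : Λ ^ 2 ∣ Λ * d 1 h1mem := by
      rw [← hd 1 h1mem, one_mul]; exact hsq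
    rw [pow_two] at h2
    exact (mul_dvd_mul_iff_left hprime.ne_zero).1 h2
  -- a uniform version of `d` on all of `𝓞 K`
  let e : 𝓞 K → 𝓞 K := fun η => if hη : η ∈ μp then d η hη else 1
  have he : ∀ η (hη : η ∈ μp), e η = d η hη := fun η hη => by simp [e, hη]
  have hprod : ∏ η ∈ μp, (x + η * y) = Λ ^ p * ∏ η ∈ μp, e η := by
    have : ∀ η ∈ μp, x + η * y = Λ * e η := fun η hη => by rw [he η hη, hd η hη]
    rw [Finset.prod_congr rfl this, Finset.prod_mul_distrib, Finset.prod_const,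
      hzprim.card_nthRootsFinset]
  obtain ⟨c₁, hc₁⟩ := hlc
  have hc₁0 : c₁ ≠ 0 := by
    rintro rfl; exact hc (by rw [hc₁, mul_zero])
  have hprode : ∏ η ∈ μp, e η = ε * c₁ ^ p := by
    have h5 : Λ ^ p * ∏ η ∈ μp, e η = Λ ^ p * (ε * c₁ ^ p) := by
      rw [← hprod, ← hzprim.pow_add_pow_eq_prod_add_mul x y hoddp, H, hc₁, mul_pow]; ring
    exact mul_left_cancel₀ (pow_ne_zero p hprime.ne_zero) h5
  -- pairwise coprimality
  have hcop : ∀ η₁ (_ : η₁ ∈ μp) η₂ (_ : η₂ ∈ μp), η₁ ≠ η₂ → IsCoprime (e η₁) (e η₂) := by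
    intro η₁ h₁ η₂ h₂ hne
    have hone : η₁ ≠ 1 ∨ η₂ ≠ 1 := by
      by_contra hcon
      rw [not_or, not_not, not_not] at hcon
      exact hne (hcon.1.trans hcon.2.symm)
    have hnd' : ¬ (Λ ∣ e η₁ ∧ Λ ∣ e η₂) := by
      rintro ⟨ha, hb⟩
      rcases hone with h | h
      · exact hnd η₁ h₁ h (he η₁ h₁ ▸ ha)
      · exact hnd η₂ h₂ h (he η₂ h₂ ▸ hb)
    refine isCoprime_of_prime_dvd ?_ ?_
    · rintro ⟨ha, hb⟩
      exact hnd' ⟨ha ▸ dvd_zero _, hb ▸ dvd_zero _⟩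
    · intro q hq hqa hqb
      have h1 : q ∣ x + η₁ * y := by
        rw [hd η₁ h₁, ← he η₁ h₁]; exact Dvd.dvd.mul_left hqa _
      have h2 : q ∣ x + η₂ * y := by
        rw [hd η₂ h₂, ← he η₂ h₂]; exact Dvd.dvd.mul_left hqb _
      obtain ⟨u, hu⟩ := associated_lam_root_sub_root hζ h₁ h₂ hne
      have h3 : q ∣ Λ * y := by
        have : Λ * y = (u⁻¹ : (𝓞 K)ˣ) * ((x + η₁ * y) - (x + η₂ * y)) := by
          have : (x + η₁ * y) - (x + η₂ * y) = (η₁ - η₂) * y := by ring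
          rw [this, ← hu]
          rw [show ((u⁻¹ : (𝓞 K)ˣ) : 𝓞 K) * (Λ * ↑u * y) = (↑u⁻¹ * ↑u) * (Λ * y) by ring]
          simp
        rw [this]; exact Dvd.dvd.mul_left (dvd_sub h1 h2) _
      have h4 : q ∣ Λ * x := by
        have : Λ * x = -(u⁻¹ : (𝓞 K)ˣ) * (η₂ * (x + η₁ * y) - η₁ * (x + η₂ * y)) := by
          have : η₂ * (x + η₁ * y) - η₁ * (x + η₂ * y) = -((η₁ - η₂) * x) := by ring
          rw [this, ← hu]
          rw [show -((u⁻¹ : (𝓞 K)ˣ) : 𝓞 K) * -(Λ * ↑u * x) = (↑u⁻¹ * ↑u) * (Λ * x) by ring]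
          simp
        rw [this]
        exact Dvd.dvd.mul_left (dvd_sub (Dvd.dvd.mul_left h1 _) (Dvd.dvd.mul_left h2 _)) _
      obtain ⟨a, b, hab⟩ := hxy
      have h5 : q ∣ Λ := by
        have : Λ = a * (Λ * x) + b * (Λ * y) := by
          rw [show a * (Λ * x) + b * (Λ * y) = Λ * (a * x + b * y) by ring, hab, mul_one]
        rw [this]
        exact dvd_add (Dvd.dvd.mul_left h4 _) (Dvd.dvd.mul_left h3 _)
      have h6 : Associated q Λ := hq.associated_of_dvd hprime h5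
      exact hnd' ⟨h6.symm.dvd.trans hqa, h6.symm.dvd.trans hqb⟩
  -- each `e η` is associated to a `p`-th power
  have hpow : ∀ η ∈ μp, ∃ ρ, Associated (ρ ^ p) (e η) := by
    intro η hη
    have hcop' : IsCoprime (e η) (∏ η' ∈ Finset.erase μp η, e η') := by
      refine IsCoprime.prod_right fun η' hη' => ?_
      exact hcop η hη η' (Finset.mem_of_mem_erase hη') (Finset.ne_of_mem_erase hη').symm
    refine exists_associated_pow_of_associated_pow_mul hcop' (c := c₁) ?_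
    rw [Finset.mul_prod_erase _ _ hη, hprode]
    exact ⟨ε, mul_comm _ _⟩
  -- the three roots we use: `1`, `z` and `z ^ (p - 1)`
  set z : 𝓞 K := hζ.toInteger with hz
  have hp3 : 3 ≤ p := by
    have := hp.out.two_le
    omega
  have hzmem : z ∈ μp := (mem_nthRootsFinset hp.out.pos 1).2 hzprim.pow_eq_one
  have hzpow : z * z ^ (p - 1) = 1 := by
    rw [← pow_succ', Nat.sub_add_cancel hp.out.one_le, hzprim.pow_eq_one]
  have hz'mem : z ^ (p - 1) ∈ μp := by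
    refine (mem_nthRootsFinset hp.out.pos 1).2 ?_
    rw [← pow_mul, mul_comm, pow_mul, hzprim.pow_eq_one, one_pow]
  have hzne1 : z ≠ 1 := hzprim.ne_one hp.out.one_lt
  have hz'ne1 : z ^ (p - 1) ≠ 1 := by
    intro h
    rw [h, mul_one] at hzpow
    exact hzne1 hzpow
  have hzz' : z ≠ z ^ (p - 1) := by
    intro h
    have h1 : z ^ 1 = z ^ (p - 1) := by rw [pow_one]; exact h
    have := hzprim.pow_inj (by omega) (by omega) h1
    omega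
  obtain ⟨ρ₀, u₀, hρ₀⟩ := hpow 1 h1mem
  obtain ⟨ρ₁, u₁, hρ₁⟩ := hpow z hzmem
  obtain ⟨ρ₂, u₂, hρ₂⟩ := hpow (z ^ (p - 1)) hz'mem
  -- basic properties of the `ρ`s
  have hlρ₀ : Λ ∣ ρ₀ := by
    have : Λ ∣ ρ₀ ^ p * u₀ := by rw [hρ₀, he 1 h1mem]; exact hd1
    exact hprime.dvd_of_dvd_pow ((Units.dvd_mul_right).1 this)
  have hlρ₁ : ¬ Λ ∣ ρ₁ := by
    intro h
    refine hnd z hzmem hzne1 ?_
    rw [← he z hzmem, ← hρ₁]
    exact Dvd.dvd.mul_right (dvd_pow h hp0) _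
  have hlρ₂ : ¬ Λ ∣ ρ₂ := by
    intro h
    refine hnd _ hz'mem hz'ne1 ?_
    rw [← he _ hz'mem, ← hρ₂]
    exact Dvd.dvd.mul_right (dvd_pow h hp0) _
  have hρ₀0 : ρ₀ ≠ 0 := by
    rintro rfl
    rw [zero_pow hp0, zero_mul] at hρ₀
    have h0 : ∏ η ∈ μp, e η = 0 := Finset.prod_eq_zero h1mem hρ₀.symm
    rw [hprode] at h0
    rcases mul_eq_zero.1 h0 with h | h
    · exact ε.ne_zero h
    · exact hc₁0 (pow_eq_zero_iff hp0 |>.1 h)
  have hρ₀dvd : ρ₀ ∣ c₁ := by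
    rw [← IsIntegrallyClosed.pow_dvd_pow_iff hp0]
    have h1 : ρ₀ ^ p ∣ e 1 := ⟨u₀, hρ₀.symm⟩
    have h2 : e 1 ∣ ∏ η ∈ μp, e η := Finset.dvd_prod_of_mem _ h1mem
    rw [hprode] at h2
    exact (Units.dvd_mul_left).1 (h1.trans h2)
  have hcopρ : IsCoprime ρ₁ ρ₂ := by
    have h12 := hcop z hzmem _ hz'mem hzz'
    have h1 : ρ₁ ∣ e z := ⟨ρ₁ ^ (p - 1) * u₁, by
      rw [← hρ₁, ← mul_assoc, ← pow_succ', Nat.sub_add_cancel hp.out.one_le]⟩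
    have h2 : ρ₂ ∣ e (z ^ (p - 1)) := ⟨ρ₂ ^ (p - 1) * u₂, by
      rw [← hρ₂, ← mul_assoc, ← pow_succ', Nat.sub_add_cancel hp.out.one_le]⟩
    exact (h12.of_isCoprime_of_dvd_left h1).of_isCoprime_of_dvd_right h2
  -- the key identity
  have hkey : z * e (z ^ (p - 1)) + e z = (1 + z) * e 1 := by
    have h5 : Λ * (z * e (z ^ (p - 1)) + e z) = Λ * ((1 + z) * e 1) := by
      have e1 := hd 1 h1mem
      have e2 := hd z hzmem
      have e3 := hd _ hz'mem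
      rw [← he 1 h1mem] at e1
      rw [← he z hzmem] at e2
      rw [← he _ hz'mem] at e3
      calc Λ * (z * e (z ^ (p - 1)) + e z) = z * (Λ * e (z ^ (p - 1))) + Λ * e z := by ring
        _ = z * (x + z ^ (p - 1) * y) + (x + z * y) := by rw [← e3, ← e2]
        _ = (1 + z) * (x + 1 * y) + (z * z ^ (p - 1) - 1) * y := by ring
        _ = (1 + z) * (Λ * e 1) := by rw [hzpow, e1]; ring
        _ = Λ * ((1 + z) * e 1) := by ring
    exact mul_left_cancel₀ hprime.ne_zero h5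
  -- units
  have hzunit : IsUnit z := hzprim.isUnit hp0
  have h1zunit : IsUnit (1 + z) := by
    have h := hzprim.geom_sum_isUnit hp.out.two_le (j := 2)
      ((Nat.coprime_primes Nat.prime_two hp.out).2 (Ne.symm hodd))
    simpa [Finset.sum_range_succ] using h
  set η : (𝓞 K)ˣ := hzunit.unit * u₂ * u₁⁻¹ with hη
  set ε' : (𝓞 K)ˣ := h1zunit.unit * u₀ * u₁⁻¹ with hε'
  have hnew : ρ₁ ^ p + η * ρ₂ ^ p = ε' * ρ₀ ^ p := by
    have h6 : (u₁ : 𝓞 K) * (ρ₁ ^ p + η * ρ₂ ^ p) = u₁ * (ε' * ρ₀ ^ p) := by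
      have hu : (u₁ : 𝓞 K) * ((u₁⁻¹ : (𝓞 K)ˣ) : 𝓞 K) = 1 := by simp
      calc (u₁ : 𝓞 K) * (ρ₁ ^ p + η * ρ₂ ^ p)
          = ρ₁ ^ p * u₁ + z * (ρ₂ ^ p * u₂) * (u₁ * ((u₁⁻¹ : (𝓞 K)ˣ) : 𝓞 K)) := by
            simp only [hη, Units.val_mul, IsUnit.unit_spec]; ring
        _ = e z + z * e (z ^ (p - 1)) := by rw [hρ₁, hρ₂, hu, mul_one]
        _ = (1 + z) * e 1 := by rw [← hkey]; ring
        _ = (1 + z) * (ρ₀ ^ p * u₀) * (u₁ * ((u₁⁻¹ : (𝓞 K)ˣ) : 𝓞 K)) := by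
            rw [hρ₀, hu, mul_one]
        _ = u₁ * (ε' * ρ₀ ^ p) := by
            simp only [hε', Units.val_mul, IsUnit.unit_spec]; ring
    exact mul_left_cancel₀ u₁.ne_zero h6
  -- Kummer's lemma applies to `η`
  have hpdvd : (p : 𝓞 K) ∣ ρ₀ ^ p := by
    have h7 : (p : 𝓞 K) ∣ Λ ^ (p - 1) :=
      (IsCyclotomicExtension.Rat.associated_zeta_sub_one_pow_prime p hζ).symm.dvd
    have h8 : Λ ^ (p - 1) ∣ ρ₀ ^ p :=
      (pow_dvd_pow _ (Nat.sub_le p 1)).trans (pow_dvd_pow_of_dvd hlρ₀ p)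
    exact h7.trans h8
  obtain ⟨a₁, ha₁⟩ := exists_int_dvd_pow_sub hζ ρ₁
  obtain ⟨a₂, ha₂⟩ := exists_int_dvd_pow_sub hζ ρ₂
  have ha₂p : ¬ (p : ℤ) ∣ a₂ := by
    intro h
    have h9 : Λ ∣ (a₂ : 𝓞 K) := (IsCyclotomicExtension.Rat.zeta_sub_one_dvd_intCast_iff' p hζ).2 h
    have h10 : Λ ∣ ρ₂ ^ p - (a₂ : 𝓞 K) := (hζ.toInteger_sub_one_dvd_prime').trans ha₂
    have h11 : Λ ∣ ρ₂ ^ p := by
      have := dvd_add h10 h9
      rwa [sub_add_cancel] at this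
    exact hlρ₂ (hprime.dvd_of_dvd_pow h11)
  have hcopa : IsCoprime (p : ℤ) a₂ :=
    (Nat.prime_iff_prime_int.1 hp.out).irreducible.coprime_iff_not_dvd.2 ha₂p
  obtain ⟨t, s, hst⟩ := hcopa
  have hηcong : (p : 𝓞 K) ∣ (η : 𝓞 K) - ((-(s * a₁) : ℤ) : 𝓞 K) := by
    have h12 : (p : 𝓞 K) ∣ (a₁ : 𝓞 K) + η * (a₂ : 𝓞 K) := by
      have : (a₁ : 𝓞 K) + η * (a₂ : 𝓞 K) =
          (ρ₁ ^ p + η * ρ₂ ^ p) - (ρ₁ ^ p - a₁) - η * (ρ₂ ^ p - a₂) := by ring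
      rw [this, hnew]
      exact dvd_sub (dvd_sub (Dvd.dvd.mul_left hpdvd _) ha₁) (Dvd.dvd.mul_left ha₂ _)
    have hst' : (t : 𝓞 K) * (p : 𝓞 K) + (s : 𝓞 K) * (a₂ : 𝓞 K) = 1 := by
      have := congrArg (fun n : ℤ => (n : 𝓞 K)) hst
      simpa using this
    have : (η : 𝓞 K) - ((-(s * a₁) : ℤ) : 𝓞 K) =
        (s : 𝓞 K) * ((a₁ : 𝓞 K) + η * (a₂ : 𝓞 K)) + (p : 𝓞 K) * (η * t) := by
      have h13 : (η : 𝓞 K) = η * ((t : 𝓞 K) * (p : 𝓞 K) + (s : 𝓞 K) * (a₂ : 𝓞 K)) := by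
        rw [hst', mul_one]
      push_cast
      nth_rewrite 1 [h13]
      ring
    rw [this]
    exact dvd_add (Dvd.dvd.mul_left h12 _) (dvd_mul_right _ _)
  obtain ⟨v, hv⟩ := hkum η _ hηcong
  refine ⟨ρ₁, v * ρ₂, ρ₀, ε', ?_, ?_, hρ₀0, hlρ₀, ?_, ?_⟩
  · exact fun h => hlρ₂ ((Units.dvd_mul_left).1 h)
  · exact (isCoprime_mul_unit_left_right v.isUnit _ _).2 hcopρ
  · rw [mul_pow, ← Units.val_pow_eq_pow_val, ← hv]
    exact hnew
  · rw [hc₁]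
    exact mul_dvd_mul_left _ hρ₀dvd


/-- The descent step for an arbitrary solution of the generalised equation. -/
lemma descent (hodd : p ≠ 2) [IsPrincipalIdealRing (𝓞 K)]
    (hkum : ∀ (u : (𝓞 K)ˣ) (a : ℤ), (p : 𝓞 K) ∣ (u : 𝓞 K) - (a : 𝓞 K) → ∃ v : (𝓞 K)ˣ, u = v ^ p)
    {x y c : 𝓞 K} {ε : (𝓞 K)ˣ} (hy : ¬ Λ ∣ y) (hxy : IsCoprime x y) (hc : c ≠ 0) (hlc : Λ ∣ c)
    (H : x ^ p + y ^ p = ε * c ^ p) :
    ∃ (x' y' c' : 𝓞 K) (ε' : (𝓞 K)ˣ), ¬ Λ ∣ y' ∧ IsCoprime x' y' ∧ c' ≠ 0 ∧ Λ ∣ c' ∧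
      x' ^ p + y' ^ p = ε' * c' ^ p ∧ Λ * c' ∣ c := by
  have hp0 : p ≠ 0 := hp.out.ne_zero
  have hdvdsum : Λ ∣ x ^ p + y ^ p := by
    rw [H]; exact Dvd.dvd.mul_left (dvd_pow hlc hp0) _
  obtain ⟨η₀, hη₀, hsq⟩ := exists_lam_sq_dvd hζ hodd hy
    (fun η hη => lam_dvd_add_root_mul hζ hodd hdvdsum hη)
  have hη₀pow : η₀ ^ p = 1 := (mem_nthRootsFinset hp.out.pos 1).1 hη₀
  have hη₀unit : IsUnit η₀ := IsUnit.of_pow_eq_one hη₀pow hp0
  refine descent_of_sq_dvd hζ hodd hkum (x := x) (y := η₀ * y) (c := c) (ε := ε) ?_ ?_ hc hlc hsq ?_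
  · exact fun h => hy ((hη₀unit.dvd_mul_left).1 h)
  · exact (isCoprime_mul_unit_left_right hη₀unit _ _).2 hxy
  · rw [mul_pow, hη₀pow, one_mul, H]

/-- The generalised Fermat equation `x ^ p + y ^ p = ε * c ^ p` has no solution with `Λ ∣ c`,
`c ≠ 0`, `¬ Λ ∣ y` and `x`, `y` coprime. -/
theorem no_solution_gen (hodd : p ≠ 2) [IsPrincipalIdealRing (𝓞 K)]
    (hkum : ∀ (u : (𝓞 K)ˣ) (a : ℤ), (p : 𝓞 K) ∣ (u : 𝓞 K) - (a : 𝓞 K) → ∃ v : (𝓞 K)ˣ, u = v ^ p)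
    {x y c : 𝓞 K} {ε : (𝓞 K)ˣ} (hy : ¬ Λ ∣ y) (hxy : IsCoprime x y) (hc : c ≠ 0) (hlc : Λ ∣ c) :
    x ^ p + y ^ p ≠ ε * c ^ p := by
  have hprime := hζ.zeta_sub_one_prime'
  -- induction on a bound for the `Λ`-adic valuation of `c`
  have key : ∀ n : ℕ, ∀ (x y c : 𝓞 K) (ε : (𝓞 K)ˣ), ¬ Λ ∣ y → IsCoprime x y → c ≠ 0 → Λ ∣ c →
      ¬ Λ ^ n ∣ c → x ^ p + y ^ p ≠ ε * c ^ p := by
    intro n
    induction n with
    | zero =>
      intro x y c ε _ _ _ _ h0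
      exact absurd (by simp) h0
    | succ n ih =>
      intro x y c ε hy hxy hc hlc hn H
      obtain ⟨x', y', c', ε', hy', hxy', hc', hlc', H', hdvd⟩ :=
        descent hζ hodd hkum hy hxy hc hlc H
      refine ih x' y' c' ε' hy' hxy' hc' hlc' ?_ H'
      intro hn'
      refine hn (dvd_trans ?_ hdvd)
      rw [pow_succ']
      exact mul_dvd_mul_left _ hn'
  have hfin : FiniteMultiplicity Λ c := FiniteMultiplicity.of_not_isUnit hprime.not_isUnit hc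
  obtain ⟨n, hn⟩ := hfin
  exact key (n + 1) x y c ε hy hxy hc hlc hn

end Fermat.Agent.FLTSmall_helper79
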