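import Mathlib
import Fermat.Agent.FLTSmall_helper79.CaseII

/-!
The second case of Fermat's Last Theorem for an odd prime `p` such that the ring of integers of
the `p`-th cyclotomic field is a PID and satisfies Kummer's lemma.
-/

set_option autoImplicit false

open NumberField

namespace Fermat.Agent.FLTSmall_helper79

variable {p : ℕ} [hp : Fact p.Prime] {K : Type*} [Field K] [NumberField K]
  [IsCyclotomicExtension {p} ℚ K]

/-- coprimality of `b` and `c` from coprimality of `a` and `b` in Fermat's equation. -/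
lemma isCoprime_of_fermat {a b c : ℤ} (hab : IsCoprime a b) (H : a ^ p + b ^ p = c ^ p) :
    IsCoprime b c := by
  have h1 : IsCoprime b (a ^ p) := hab.symm.pow_right
  have h2 : IsCoprime b (a ^ p + b ^ (p - 1) * b) := h1.add_mul_right_right _
  rw [← pow_succ, Nat.sub_add_cancel hp.out.one_le, H] at h2
  exact (IsCoprime.pow_right_iff hp.out.pos).1 h2

/-- The core case: `p ∣ c`. -/
theorem caseII_aux (hodd : p ≠ 2) [IsPrincipalIdealRing (𝓞 K)]
    (hkum : ∀ (u : (𝓞 K)ˣ) (a : ℤ), (p : 𝓞 K) ∣ (u : 𝓞 K) - (a : 𝓞 K) → ∃ v : (𝓞 K)ˣ, u = v ^ p)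
    {a b c : ℤ} (hc : c ≠ 0) (hab : IsCoprime a b) (hpc : (p : ℤ) ∣ c) (hpb : ¬ (p : ℤ) ∣ b) :
    a ^ p + b ^ p ≠ c ^ p := by
  intro H
  have : NeZero p := ⟨hp.out.ne_zero⟩
  obtain ⟨ζ, hζ⟩ := IsCyclotomicExtension.exists_isPrimitiveRoot ℚ (B := K) (Set.mem_singleton p)
    hp.out.ne_zero
  have h1 : ¬ (hζ.toInteger - 1) ∣ ((b : ℤ) : 𝓞 K) := by
    rwa [IsCyclotomicExtension.Rat.zeta_sub_one_dvd_intCast_iff' p hζ]
  have h2 : (hζ.toInteger - 1) ∣ ((c : ℤ) : 𝓞 K) := by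
    rwa [IsCyclotomicExtension.Rat.zeta_sub_one_dvd_intCast_iff' p hζ]
  have h3 : ((c : ℤ) : 𝓞 K) ≠ 0 := by exact_mod_cast hc
  have h4 : IsCoprime ((a : ℤ) : 𝓞 K) ((b : ℤ) : 𝓞 K) := hab.intCast
  refine no_solution_gen hζ hodd hkum (ε := 1) h1 h4 h3 h2 ?_
  rw [Units.val_one, one_mul]
  exact_mod_cast H

/-- **Case II** of Fermat's Last Theorem for the exponent `p`, assuming that the ring of integers
of the `p`-th cyclotomic field is a PID and satisfies Kummer's lemma. -/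
theorem caseII (hodd : p ≠ 2) (hpid : IsPrincipalIdealRing (𝓞 K))
    (hkum : ∀ (u : (𝓞 K)ˣ) (a : ℤ), (p : 𝓞 K) ∣ (u : 𝓞 K) - (a : 𝓞 K) → ∃ v : (𝓞 K)ˣ, u = v ^ p)
    (a b c : ℤ) (habc : a * b * c ≠ 0) (hab : IsCoprime a b) (hdvd : (p : ℤ) ∣ a * b * c) :
    a ^ p + b ^ p ≠ c ^ p := by
  intro H
  have hpodd : Odd p := hp.out.odd_of_ne_two hodd
  have hpint : Prime (p : ℤ) := Nat.prime_iff_prime_int.1 hp.out
  have ha0 : a ≠ 0 := fun h => habc (by simp [h])
  have hb0 : b ≠ 0 := fun h => habc (by simp [h])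
  have hc0 : c ≠ 0 := fun h => habc (by simp [h])
  have hbc : IsCoprime b c := isCoprime_of_fermat hab H
  have hac : IsCoprime a c := isCoprime_of_fermat hab.symm (by rw [add_comm]; exact H)
  have hnotboth : ∀ {u v : ℤ}, IsCoprime u v → (p : ℤ) ∣ u → ¬ (p : ℤ) ∣ v := by
    intro u v huv hu hv
    exact hpint.not_isUnit (huv.isUnit_of_dvd' hu hv)
  rcases hpint.dvd_or_dvd hdvd with h | h
  · rcases hpint.dvd_or_dvd h with h | h
    · -- `p ∣ a`: use `b ^ p + (-c) ^ p = (-a) ^ p`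
      refine caseII_aux (K := K) hodd hkum (a := b) (b := -c) (c := -a) (neg_ne_zero.2 ha0)
        hbc.neg_right ((dvd_neg).2 h) ?_ ?_
      · rw [dvd_neg]; exact hnotboth hac h
      · rw [hpodd.neg_pow, hpodd.neg_pow, ← H]; ring
    · -- `p ∣ b`: use `a ^ p + (-c) ^ p = (-b) ^ p`
      refine caseII_aux (K := K) hodd hkum (a := a) (b := -c) (c := -b) (neg_ne_zero.2 hb0)
        hac.neg_right ((dvd_neg).2 h) ?_ ?_
      · rw [dvd_neg]; exact hnotboth hbc h
      · rw [hpodd.neg_pow, hpodd.neg_pow, ← H]; ring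
  · -- `p ∣ c`
    exact caseII_aux (K := K) hodd hkum hc0 hab h (hnotboth hbc.symm h) H

end Fermat.Agent.FLTSmall_helper79
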